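/-
Program C (S55), package C9b, leaf (C) `H70.FieldFormBridge` (designer + owner helper54):
STATEMENTS.

`ff := H43.fieldFormR …` (helper43: `H2L = continuousH2S S (baseRep p L)`, `sh = id`,
`VL = Σ q : ↥S, H43.Orb S L q`, `invL ⟨q, O⟩ x = - inv q ((ε_{q,O})_* (loc_q x))`),
`eH := H49.eHLevel` (helper49), `ι := iotaQZ p`, `a ↦ -(a/p)`, and `eV` = orbits ↔ places.

Leaves (Props of this file; each is consumed verbatim by the assembly `Bridge.lean`):

* `FLRealStatement hpS` (FL-REAL): a `μ_p`-valued level-constant 2-cocycle `ζ₀ ^ f` of `G_L` is,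
  in `H²_lc(G_S(L), ℚ_S^×)`, the inflation of a unit cocycle of a finite layer realising `f`;
* `LocOrbitStatement p q S` (LOC, single-orbit module form; helper66's `loc_orbit`): the local
  invariant at the place `ι_q ∘ g₀` of the realised class equals `inv₀ (m_* (loc_q [z]))` for
  every `G_q`-morphism `m` supported on the orbit of `g₀ G_L` with `m (δ_{g₀ G_L}) = χ (g₀)`;
* `InvHlcStatement` (C-inv; helper43): the Prelude-side invariant
  `inv q ((ε_{q,O})_* (loc_q [c]))` in the level-constant vocabulary of LOC;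
* the interface with the final `A : GSArith S L QZ` of leaf (A): hypotheses `eP`, `hAinv` of
  the assembly (places above `S` and `A.inv` on inflated `p`-torsion classes).
-/
import Fermat.Agent.S55.H70.GSExports
import Fermat.Agent.S55.H43.FieldFormApi
import Fermat.Agent.S55.H49.EHLevel
import Fermat.Agent.S55.H74.GalLayerC8
import Fermat.Agent.S55.H66.LocSpec
import Fermat.Agent.S55.H26.LocalTop
import Fermat.Agent.S55.H40.LocalInv
import Fermat.Agent.S55.H81.IsoOrb
import Fermat.Agent.S55.H20.LinvIndep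

set_option autoImplicit false

open CategoryTheory groupCohomology ExtCitation

noncomputable section

namespace Fermat.Agent.S55.H54

open Fermat.Agent.S55 Fermat.Agent.S55.H49 Fermat.Agent.S55.H26 Fermat.Agent.S55.H66

local notation "Qb" => AlgebraicClosure ℚ

attribute [local instance] H88.factOfPrimes

/-! ### `ι : 𝔽_p → ℚ/ℤ`, `a ↦ -(a/p)` -/

section Iota

variable (p : ℕ) [Fact p.Prime]

/-- `ι : 𝔽_p → ℚ/ℤ`, `a ↦ -(a/p)` (the sign absorbs the `-1` of `H43.fieldFormR`). -/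
def iotaQZ : ZMod p →+ H66.QZ :=
  -(AddMonoidHom.mk' (qzOfZMod p) (H40.qzOfZMod_add p))

variable {p}

theorem iotaQZ_apply (a : ZMod p) : iotaQZ p a = -qzOfZMod p a := rfl

theorem iotaQZ_neg (a : ZMod p) : iotaQZ p (-a) = qzOfZMod p a := by
  rw [map_neg, iotaQZ_apply, neg_neg]

theorem iotaQZ_injective : Function.Injective (iotaQZ p) := fun _ _ h =>
  H40.qzOfZMod_injective p (neg_injective h)

end Iota

variable {p : ℕ} [Fact p.Prime] {S : Finset Nat.Primes}

/-! ### Leaves -/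

/-- **Leaf (FL-REAL)**.  Let `z'` be a level-constant 2-cocycle of `G_L` with values in `μ_p`,
`z' (h₁, h₂) = ζ₀ ^ f (h₁, h₂)`.  Then there are a finite Galois layer `K / L` inside `ℚ_S`
and a unit-valued 2-cocycle `c` of `Gal(K/L)` realising `f` (w.r.t. `ζ₀ ∈ K`) whose inflation to
`H²_lc(G_S(L), ℚ_S^×)` is the image of `[z']` under `μ_p → E_S → ℚ_S^×`.
Proof: `H99.lcF` on classes is composition with the coefficient maps; the cochain
`h ↦ ζ₀ ^ f h` is constant modulo a level `N`; `H74.exists_layer_ge` gives a layer `K ⊇ N`,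
`H74.exists_inflKCo_eq` descends the cochain to `c` on `Gal(K/L)`, which is a cocycle by
`H74.inflKLc_injective` + `inflKLc_d`; `H74.inflK_Hmk`; `GRealises` is `H74.inflKCo_apply`
(`H74.galRes = H66.gRes`). -/
def FLRealStatement (hpS : pPrime p ∈ S) : Prop :=
  ∀ (L : IntermediateField ℚ Qb), H70.IsLevelField p S L →
    ∀ (ζ₀ : Qb) (hζ₀ : IsPrimitiveRoot ζ₀ p)
      (z' : cyc (lcComplex (H42.fieldDatum S L) (H42.resF L (H42.Mux p))) 2)
      (f : L.fixingSubgroup × L.fixingSubgroup → ZMod p),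
      (∀ h : Fin 2 → ↥L.fixingSubgroup, lcVal z' h = muEquiv p hζ₀ (f (h 0, h 1))) →
      ∃ (K : H74.QSLayer S L) (ζK : (↥K.K)ˣ)
        (c : cocycles₂ (Rep.ofAlgebraAutOnUnits ↥L ↥K.K)),
        ((ζK : ↥K.K) : Qb) = ζ₀ ∧ GRealises p L K.K ζK f c ∧
        H70.gsI2 L (H70.kuJ2 hpS L
            ((cls (lcComplex (H42.fieldDatum S L) (H42.resF L (H42.Mux p))) 2).hom z')) =
          H74.inflK S L K.K K.unr 2 (H2π (Rep.ofAlgebraAutOnUnits ↥L ↥K.K) c)

/-- **Leaf (LOC), single-orbit module form** (= helper66's `loc_orbit`: LOC-2 `loc_orb` +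
LOC-D + LINV-INDEP).  `L` a number field containing `μ_p`, `K / L` finite Galois, `c` a unit
cocycle of `Gal(K/L)` realising the Shapiro restriction of the level cocycle `z` of `G_ℚ` with
values in `𝔽_p[G_ℚ / G_L]`; `inv₀` the local invariant at `q` relative to `ι_q ζ`; `m` a
`G_q`-morphism `𝔽_p[G_ℚ / G_L] → 𝔽_p(χ)` supported on the `G_q`-orbit of `g₀ G_L` with
`m (δ_{g₀ G_L}) = χ (g₀)`.  Then the invariant of `[c]` at the place `ι_q ∘ g₀` of `K` is
`inv₀ (m_* (loc_q [z])) / p`. -/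
def LocOrbitStatement (p : ℕ) [Fact p.Prime] (q : ℕ) [Fact q.Prime]
    (S : Finset Nat.Primes) : Prop :=
  ∀ (L : IntermediateField ℚ Qb) [FiniteDimensional ℚ L] (K : IntermediateField L Qb)
    [FiniteDimensional L K] [IsGalois L K] (ζ : Kˣ),
    IsPrimitiveRoot ((ζ : K) : Qb) p → ((ζ : K) : Qb) ∈ L →
    ∀ inv₀ : Hlc (Dloc q) (mu (chiLoc p q)) 2 →ₗ[ZMod p] ZMod p,
      IsLocalInv p q (padicEmbedding q ((ζ : K) : Qb)) inv₀ →
    ∀ (z : cyc (lcComplex (globalDatum S) (permRep (ZMod p) L.fixingSubgroup)) 2)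
      (c : cocycles₂ (Rep.ofAlgebraAutOnUnits L K)),
      GRealises p L K ζ (shapiroRes (globalDatum S) L.fixingSubgroup z) c →
    ∀ (g₀ : GQ)
      (m : Rep.res (localGaloisToGlobal q) (permRep (ZMod p) L.fixingSubgroup) ⟶
        mu (chiLoc p q)),
      (m.hom (MonoidAlgebra.single ((g₀ : GQ) : GQ ⧸ L.fixingSubgroup) 1) : ZMod p) =
        ((cycloChar p g₀ : (ZMod p)ˣ) : ZMod p) →
      (∀ x : GQ, (∀ h : GalQ q, ((x : GQ) : GQ ⧸ L.fixingSubgroup) ≠
          ((localGaloisToGlobal q h * g₀ : GQ) : GQ ⧸ L.fixingSubgroup)) →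
        (m.hom (MonoidAlgebra.single ((x : GQ) : GQ ⧸ L.fixingSubgroup) 1) : ZMod p) = 0) →
      H88.linvAt q L (embAt L K q g₀) (H2π (Rep.ofAlgebraAutOnUnits L K) c) =
        qzOfZMod p (inv₀ (hlcMap (Dloc q) m 2 ((cls _ 2).hom
          (cycMap (lcRes (locHom S (localGaloisToGlobal q))
            (permRep (ZMod p) L.fixingSubgroup)) 2 z))))

/-- **Leaf (C-inv)** (helper43).  For a family `inv` of local invariants attached to ONE global
primitive `p`-th root of unity `ζ₀` (`H26.IsLocalInvFamily`), a level field `L`, `q ∈ S`,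
`g₀ ∈ G_ℚ` and a Prelude level cocycle `c` of `G_ℚ` in `F_L = 𝔽_p[G_ℚ/G_L]` with
level-constant twin `z`: there are a local invariant `inv₀` on the level-constant cohomology of
`G_q` (relative to `ι_q ζ₀`) and a `G_q`-morphism `m : F_L → 𝔽_p(χ)`, supported on the orbit of
`g₀ G_L` with `m (δ_{g₀ G_L}) = χ (g₀)` (namely `m = ε_{q,O}`, `O` the orbit of `g₀ G_L`), such
that `inv q ((ε_{q,O})_* (loc_q [c])) = inv₀ (m_* (loc_q [z]))`. -/
def InvHlcStatement (p : ℕ) [Fact p.Prime] (S : Finset Nat.Primes) : Prop :=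
  ∀ (ζ₀ : Qb) (inv : H62.LocalInv p S), IsLocalInvFamily p S ζ₀ inv →
    ∀ (L : IntermediateField ℚ Qb) (hL : H70.IsLevelField p S L) (q : ↥S) (g₀ : GQ)
      (c : levelCocyclesS₂ S (H70.baseRep p L))
      (z : cyc (lcComplex (globalDatum S) (H70.baseRep p L)) 2),
      (∀ γ : Fin 2 → GQ, lcVal z γ = c.1 (γ 0, γ 1)) →
      ∃ (inv₀ : Hlc (Dloc (q.1 : ℕ)) (mu (chiLoc p (q.1 : ℕ))) 2 →ₗ[ZMod p] ZMod p)
        (m : Rep.res (localGaloisToGlobal (q.1 : ℕ)) (permRep (ZMod p) L.fixingSubgroup) ⟶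
          mu (chiLoc p (q.1 : ℕ))),
        IsLocalInv p (q.1 : ℕ) (padicEmbedding (q.1 : ℕ) ζ₀) inv₀ ∧
        (m.hom (MonoidAlgebra.single ((g₀ : GQ) : GQ ⧸ L.fixingSubgroup) 1) : ZMod p) =
          ((cycloChar p g₀ : (ZMod p)ˣ) : ZMod p) ∧
        (∀ x : GQ, (∀ h : GalQ (q.1 : ℕ), ((x : GQ) : GQ ⧸ L.fixingSubgroup) ≠
            ((localGaloisToGlobal (q.1 : ℕ) h * g₀ : GQ) : GQ ⧸ L.fixingSubgroup)) →
          (m.hom (MonoidAlgebra.single ((x : GQ) : GQ ⧸ L.fixingSubgroup) 1) : ZMod p) = 0) ∧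
        inv q (H43.evH2 S (H70.baseRep p L) q
            (H43.epsO' S L (H43.cycloChar_eq_one_of_isLevelField hL) q
              (H43.orbMk q ((g₀ : GQ) : GQ ⧸ L.fixingSubgroup)))
            (locRes₂S S (H70.baseRep p L) (primeLocalToGlobal q.1)
              (continuousH2Sπ S (H70.baseRep p L) c))) =
          inv₀ (hlcMap (Dloc (q.1 : ℕ)) m 2 ((cls _ 2).hom
            (cycMap (lcRes (locHom S (localGaloisToGlobal (q.1 : ℕ)))
              (permRep (ZMod p) L.fixingSubgroup)) 2 z)))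

end Fermat.Agent.S55.H54

end
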