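/-
Program C (S55), package C9b, leaf (C) `H70.FieldFormBridge` (designer + owner helper54):
THE ASSEMBLY.

`fieldFormBridge_of`: `H70.FieldFormBridge hpS (H43.rPackage S (H62.rpairing p S inv)) L A` for
every `A : GSArith S L ℚ/ℤ` whose places above `S` are the finite places of `L` above `S`
(`eP`) and whose invariants on inflated `p`-torsion classes are C5's finite-layer invariants
(`hAinv`), from the three leaves of `BridgeSpec.lean` (FL-REAL, LOC single-orbit form, C-inv).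

* `ff := H43.fieldFormR` (helper43), `ι := iotaQZ p`, `eH := H49.eHLevel` (helper49);
* `eV := vlEquiv L ≫ eP⁻¹`, `vlEquiv L : (Σ q : ↥S, Orb S L q) ≃ {v : FinPlace L // v.1 ∈ S}`,
  `(q, orbit of g G_L) ↦ (q, place of ι_q ∘ g|L)` (`orbPlace`; the orbit ↔ place bijection is
  proved here: `cosetPlace_smul`, `cosetPlace_inj`, `cosetPlace_surjective`).
-/
import Fermat.Agent.S55.H54.BridgeSpec
import Fermat.Agent.S55.H43.OrbEquiv
import Fermat.Agent.S55.H74.GalLayerLoc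
import Fermat.Agent.S55.H66.LocOrbit

set_option autoImplicit false

open CategoryTheory groupCohomology ExtCitation

noncomputable section

namespace Fermat.Agent.S55.H54

open Fermat.Agent.S55 Fermat.Agent.S55.H49 Fermat.Agent.S55.H26 Fermat.Agent.S55.H66

local notation "Qb" => AlgebraicClosure ℚ

attribute [local instance] H88.factOfPrimes

/-! ### Orbits of the local group on `G_ℚ / G_L` and places of `L` -/

section Orbits

variable (q : ℕ) [Fact q.Prime] (L : IntermediateField ℚ Qb)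

/-- Every embedding of `L` into `PadicAlgCl q` is `x ↦ ι_q (g x)` for some `g ∈ G_ℚ`. -/
theorem exists_orbEmb_eq (τ : ↥L →+* PadicAlgCl q) : ∃ g : GQ, H81.orbEmb q L g = τ := by
  have : Algebra.IsAlgebraic ℚ Qb := AlgebraicClosure.isAlgebraic ℚ
  have : IsAlgClosure ℚ Qb := ⟨inferInstance, inferInstance⟩
  have : Normal ℚ Qb := IsAlgClosure.normal ℚ Qb
  have : Algebra.IsAlgebraic ↥L Qb := Algebra.IsAlgebraic.tower_top (K := ℚ) ↥L
  obtain ⟨τ₁, hτ₁⟩ := H88.exists_extend q (k := ↥L) (K := Qb) τ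
  have h : ((padicEmbedding q : Qb →+* PadicAlgCl q)).comp (algebraMap ℚ Qb) =
      τ₁.comp (algebraMap ℚ Qb) := Subsingleton.elim _ _
  obtain ⟨σ, hσ⟩ := H88.exists_algEquiv_comp_eq q (k := ℚ) (K := Qb)
    (padicEmbedding q : Qb →+* PadicAlgCl q) τ₁ h
  refine ⟨σ, RingHom.ext fun x => ?_⟩
  have h1 := RingHom.congr_fun hτ₁ x
  have h2 := RingHom.congr_fun hσ (x : Qb)
  exact h2.symm.trans h1

/-- The place of `L` above `q` attached to the coset `g G_L`: the class of `ι_q ∘ g|L`. -/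
def cosetPlace : GQ ⧸ L.fixingSubgroup → H88.PlaceAbove q ↥L :=
  Quotient.lift (s := QuotientGroup.leftRel L.fixingSubgroup)
    (fun g : GQ => H88.placeOf q (H81.orbEmb q L g)) (by
      intro a b hab
      have h : a⁻¹ * b ∈ L.fixingSubgroup := QuotientGroup.leftRel_apply.1 hab
      have e : H81.orbEmb q L b = H81.orbEmb q L a := by
        have := H81.orbEmb_mul_of_mem q L a h
        rwa [mul_inv_cancel_left] at this
      show H88.placeOf q (H81.orbEmb q L a) = H88.placeOf q (H81.orbEmb q L b)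
      rw [e])

theorem cosetPlace_mk (g : GQ) :
    cosetPlace q L ((g : GQ) : GQ ⧸ L.fixingSubgroup) = H88.placeOf q (H81.orbEmb q L g) := rfl

theorem cosetPlace_smul (h : GalQ q) (x : GQ ⧸ L.fixingSubgroup) :
    cosetPlace q L (localGaloisToGlobal q h • x) = cosetPlace q L x := by
  induction x using QuotientGroup.induction_on with
  | H g =>
    show H88.placeOf q (H81.orbEmb q L (localGaloisToGlobal q h * g)) =
      H88.placeOf q (H81.orbEmb q L g)
    rw [H81.orbEmb_local]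
    exact (Quotient.sound (s := H88.placeSetoid q ↥L) ⟨h, rfl⟩).symm

theorem cosetPlace_inj (x y : GQ ⧸ L.fixingSubgroup)
    (h : cosetPlace q L x = cosetPlace q L y) :
    ∃ g : GalQ q, localGaloisToGlobal q g • x = y := by
  induction x using QuotientGroup.induction_on with
  | H γ₁ =>
    induction y using QuotientGroup.induction_on with
    | H γ₂ =>
      obtain ⟨g, hg⟩ := Quotient.exact (s := H88.placeSetoid q ↥L) h
      rw [← H81.orbEmb_local] at hg
      obtain ⟨s, hs, e⟩ := H81.eq_mul_of_orbEmb_eq q L hg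
      refine ⟨g, ?_⟩
      show ((localGaloisToGlobal q g * γ₁ : GQ) : GQ ⧸ L.fixingSubgroup) =
        ((γ₂ : GQ) : GQ ⧸ L.fixingSubgroup)
      rw [e, QuotientGroup.eq, inv_mul_cancel_left]
      exact hs

theorem cosetPlace_surjective : Function.Surjective (cosetPlace q L) := by
  intro v
  obtain ⟨τ, rfl⟩ := Quotient.exists_rep v
  obtain ⟨g, rfl⟩ := exists_orbEmb_eq q L τ
  exact ⟨((g : GQ) : GQ ⧸ L.fixingSubgroup), rfl⟩

end Orbits

section EV

variable {S : Finset Nat.Primes} (L : IntermediateField ℚ Qb)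

/-- The orbits of the local group at `q` on `G_ℚ / G_L` are the places of `L` above `q`. -/
def orbPlace (q : ↥S) : H43.Orb S L q ≃ H88.PlaceAbove (q.1 : ℕ) ↥L :=
  Equiv.ofBijective
    (H43.orbLift q (cosetPlace (q.1 : ℕ) L) fun g x => cosetPlace_smul (q.1 : ℕ) L g x)
    ⟨by
      intro O₁ O₂ h
      obtain ⟨x, rfl⟩ := H43.orbMk_surjective q O₁
      obtain ⟨y, rfl⟩ := H43.orbMk_surjective q O₂
      obtain ⟨g, hg⟩ := cosetPlace_inj (q.1 : ℕ) L x y h
      exact ((H43.orbMk_eq_iff q y x).2 ⟨g, hg⟩).symm,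
    by
      intro v
      obtain ⟨x, rfl⟩ := cosetPlace_surjective (q.1 : ℕ) L v
      exact ⟨H43.orbMk q x, rfl⟩⟩

theorem orbPlace_mk (q : ↥S) (g : GQ) :
    orbPlace L q (H43.orbMk q ((g : GQ) : GQ ⧸ L.fixingSubgroup)) =
      H88.placeOf (q.1 : ℕ) (H81.orbEmb (q.1 : ℕ) L g) := rfl

/-- `(Σ q : ↥S, orbits of G_q on G_ℚ / G_L) ≃` the finite places of `L` above `S`. -/
def vlEquiv : (Σ q : ↥S, H43.Orb S L q) ≃ {v : H88.FinPlace ↥L // v.1 ∈ S} :=
  (Equiv.sigmaCongrRight fun q : ↥S => orbPlace L q).trans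
    (Equiv.subtypeSigmaEquiv (fun q : Nat.Primes => H88.PlaceAbove (q : ℕ) ↥L)
      (fun q => q ∈ S)).symm

theorem vlEquiv_mk (q : ↥S) (g : GQ) :
    ((vlEquiv L ⟨q, H43.orbMk q ((g : GQ) : GQ ⧸ L.fixingSubgroup)⟩ :
        {v : H88.FinPlace ↥L // v.1 ∈ S}) : H88.FinPlace ↥L) =
      ⟨q.1, H88.placeOf (q.1 : ℕ) (H81.orbEmb (q.1 : ℕ) L g)⟩ := rfl

end EV

/-! ### The leaves (FL-REAL) and (LOC) from the landed packages -/

section Leaves

variable {p : ℕ} [Fact p.Prime] {S : Finset Nat.Primes}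

/-- **(FL-REAL)** is helper74's `H74.exists_layer_gRealises`. -/
theorem flRealStatement (hpS : pPrime p ∈ S) : FLRealStatement (p := p) (S := S) hpS := by
  intro L hL ζ₀ hζ₀ z' f hz'
  have hp : p.Prime := Fact.out
  have hne : ζ₀ ≠ 0 := hζ₀.ne_zero hp.ne_zero
  have hζQ : (Units.mk0 ζ₀ hne) ^ p = 1 := Units.ext (by
    rw [Units.val_pow_eq_pow_val, Units.val_mk0, hζ₀.pow_eq_one, Units.val_one])
  obtain ⟨K, -, ζK, hζK, c, hc, hinf⟩ := H74.exists_layer_gRealises (S := S) L hpS z'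
    (Units.mk0 ζ₀ hne) hζQ f (fun γ => Units.ext (by
      rw [hz' γ, H49.val_muEquiv, Units.val_pow_eq_pow_val, Units.val_mk0]))
    (H74.QSLayer.bot hL.1)
  exact ⟨K, ζK, c, congrArg (fun u : Qbˣ => (u : Qb)) hζK, hc, hinf.symm⟩

/-- **(LOC), single-orbit module form**, from helper66's `H66.loc_orbit`. -/
theorem locOrbitStatement_of {q : ℕ} [Fact q.Prime] (hA : LocRealiseStatement p q)
    (hB : ConjShapiroStatement p q S) (hC : CohRealiseStatement p q)
    (hCMP : LocalInvCompStatement p q) (hD : OrbitDecompStatement p q S) :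
    LocOrbitStatement p q S := by
  intro L _ K _ _ ζ hζ hζL inv₀ hinv₀ z c hc g₀ m hm1 hm0
  have h := loc_orbit hA hB hC hCMP hD L K ζ hζ hζL inv₀ hinv₀ z c hc m g₀ hm0
  rw [h, hm1, ← Units.val_mul, mul_inv_cancel, Units.val_one, ZMod.val_one, one_smul]

end Leaves

/-! ### The assembly -/

section Main

variable {p : ℕ} [Fact p.Prime] {S : Finset Nat.Primes}

omit [Fact p.Prime] in
/-- A unit cocycle realising a function is killed by `p`. -/
theorem nsmul_H2π_eq_zero_of_gRealises (L : IntermediateField ℚ Qb) (K : IntermediateField L Qb)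
    [Normal L K] (ζ : Kˣ) (hζ : ζ ^ p = 1) (f : L.fixingSubgroup × L.fixingSubgroup → ZMod p)
    (c : cocycles₂ (Rep.ofAlgebraAutOnUnits L K)) (hc : GRealises p L K ζ f c) :
    p • H2π (Rep.ofAlgebraAutOnUnits L K) c = 0 := by
  have hsurj : Function.Surjective (gRes L K) := by
    rw [H74.gRes_eq_galRes]
    exact H74.galRes_surjective L K
  have h0 : p • c = 0 := by
    refine Subtype.ext (funext fun ab => ?_)
    obtain ⟨a, b⟩ := ab
    obtain ⟨σ₁, rfl⟩ := hsurj a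
    obtain ⟨σ₂, rfl⟩ := hsurj b
    show p • c.1 (gRes L K σ₁, gRes L K σ₂) = 0
    rw [hc σ₁ σ₂]
    show Additive.ofMul ((ζ ^ (f (σ₁, σ₂)).val) ^ p) = 0
    rw [← pow_mul, mul_comm, pow_mul, hζ, one_pow]
    rfl
  rw [← map_nsmul, h0, map_zero]

/-- **Leaf (C) `H70.FieldFormBridge`**, for every `A : GSArith S L ℚ/ℤ` whose places above `S`
are the finite places of `L` above `S` (`eP`) and whose invariants on inflated `p`-torsion
classes are C5's finite-layer invariants (`hAinv`); from (LOC) and (C-inv). -/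
theorem fieldFormBridge_of (hp2 : p ≠ 2) (hpS : pPrime p ∈ S)
    (ζ₀ : Qb) (hζ₀ : IsPrimitiveRoot ζ₀ p)
    (inv : H62.LocalInv p S) (hfam : IsLocalInvFamily p S ζ₀ inv)
    (hH3 : H62.H3Statement p S) (hREC : H62.RECStatement p S inv)
    (hLOC : ∀ q : ↥S, LocOrbitStatement p (q.1 : ℕ) S)
    (hINV : InvHlcStatement p S)
    (L : IntermediateField ℚ Qb) (hL : H70.IsLevelField p S L)
    (A : H70.GSArith S L H66.QZ)
    (eP : ↥A.VS ≃ {v : H88.FinPlace ↥L // v.1 ∈ S})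
    (hAinv : ∀ (v : ↥A.VS) (K : H74.QSLayer S L)
      (a : groupCohomology (Rep.ofAlgebraAutOnUnits ↥L ↥K.K) 2), p • a = 0 →
      A.inv (v : A.V) (H74.inflK S L K.K K.unr 2 a) =
        (H88.layerOf ↥L ↥K.K).linv ((eP v : {v : H88.FinPlace ↥L // v.1 ∈ S}) : H88.FinPlace ↥L) a) :
    H70.FieldFormBridge hpS (H43.rPackage S (H62.rpairing p S inv)) L A := by
  have hp : p.Prime := Fact.out
  have : FiniteDimensional ℚ ↥L := hL.1.1
  have : NumberField ↥L := ⟨⟩
  refine ⟨H43.fieldFormR S hp2 hpS inv hH3 hREC L hL, iotaQZ p, H49.eHLevel p S L hL hζ₀,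
    (vlEquiv L).trans eP.symm, iotaQZ_injective, ?_⟩
  rintro ⟨q, O⟩ x
  obtain ⟨xg, rfl⟩ := H43.orbMk_surjective q O
  obtain ⟨g₀, rfl⟩ := QuotientGroup.mk_surjective xg
  obtain ⟨c, rfl⟩ := Submodule.mkQ_surjective _ x
  obtain ⟨z, hz⟩ := (H49.eBridge_spec p S L hL).1 c
  have e1 := H49.eHLevel_cls p S L hL hζ₀ c z hz
  -- the realised representative at a finite layer
  obtain ⟨K, ζK, cK, hζK, hreal, hinfl⟩ := flRealStatement hpS L hL ζ₀ hζ₀
    (H49.eHCyc p S L hL hζ₀ z) (shapiroRes (globalDatum S) L.fixingSubgroup z) (fun h => by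
      rw [H49.lcVal_eHCyc, inv_one]
      have e : (fun i => ((h i : ↥L.fixingSubgroup) : GQ)) = ![(h 0 : GQ), (h 1 : GQ)] := by
        funext i
        fin_cases i <;> rfl
      rw [e]
      rfl)
  have hζKp : ζK ^ p = 1 := by
    apply Units.ext
    apply Subtype.ext
    show ((ζK : ↥K.K) : Qb) ^ p = 1
    rw [hζK, hζ₀.pow_eq_one]
  have htors := nsmul_H2π_eq_zero_of_gRealises L K.K ζK hζKp _ cK hreal
  -- the Prelude side
  obtain ⟨inv₀, m, hinv₀, hm1, hm0, hINVeq⟩ := hINV ζ₀ inv hfam L hL q g₀ c z hz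
  have hloc := hLOC q L K.K ζK (by rw [hζK]; exact hζ₀)
    (by rw [hζK]; exact hL.2.2 ζ₀ hζ₀.pow_eq_one) inv₀ (by rw [hζK]; exact hinv₀) z cK hreal
    g₀ m hm1 hm0
  -- assemble
  show A.inv ((((vlEquiv L).trans eP.symm) ⟨q, H43.orbMk q ((g₀ : GQ) : GQ ⧸ L.fixingSubgroup)⟩ :
      ↥A.VS) : A.V) (H70.gsI2 L (H70.kuJ2 hpS L (H49.eHLevel p S L hL hζ₀
        (continuousH2Sπ S (H70.baseRep p L) c)))) =
    iotaQZ p ((H43.fieldFormR S hp2 hpS inv hH3 hREC L hL).invL
      ⟨q, H43.orbMk q ((g₀ : GQ) : GQ ⧸ L.fixingSubgroup)⟩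
      (continuousH2Sπ S (H70.baseRep p L) c))
  rw [e1, hinfl, hAinv _ K _ htors, Equiv.trans_apply, Equiv.apply_symm_apply,
    H43.fieldFormR_invL, iotaQZ_neg, hINVeq, ← hloc]
  show H88.linvAt (q.1 : ℕ) ↥L (H88.FinPlace.ext ↥K.K
      (⟨q.1, H88.placeOf (q.1 : ℕ) (H81.orbEmb (q.1 : ℕ) L g₀)⟩ : H88.FinPlace ↥L)) _ = _
  refine congrArg (fun φ => φ (H2π (Rep.ofAlgebraAutOnUnits ↥L ↥K.K) cK))
    (H20.linvIndep ↥L ↥K.K (q.1 : ℕ) _ _ ?_)
  rw [H88.FinPlace.ext_comp]
  exact Quotient.exact (s := H88.placeSetoid (q.1 : ℕ) ↥L)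
    (Quotient.out_eq (H88.placeOf (q.1 : ℕ) (H81.orbEmb (q.1 : ℕ) L g₀)))

end Main

end Fermat.Agent.S55.H54

end
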