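/-
Program C (S55), package C9b, leaf (C) `H70.FieldFormBridge` (helper54): the bridge for
helper70's concrete arithmetic data `(H70.finalInv S L hL.1 pp lam).toArith`, and the resulting
`H70.LevelLeaves`.
-/
import Fermat.Agent.S55.H54.Bridge
import Fermat.Agent.S55.H70.GSFinal

set_option autoImplicit false

open CategoryTheory groupCohomology ExtCitation

noncomputable section

namespace Fermat.Agent.S55.H54

open Fermat.Agent.S55 Fermat.Agent.S55.H49 Fermat.Agent.S55.H26 Fermat.Agent.S55.H66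

local notation "Qb" => AlgebraicClosure ℚ

attribute [local instance] H88.factOfPrimes

variable {p : ℕ} [Fact p.Prime] {S : Finset Nat.Primes}

/-- **Leaf (C)** for the concrete `A = (H70.finalInv S L hL.1 pp lam).toArith`. -/
theorem fieldFormBridge_finalInv (hp2 : p ≠ 2) (hpS : pPrime p ∈ S)
    (ζ₀ : Qb) (hζ₀ : IsPrimitiveRoot ζ₀ p)
    (inv : H62.LocalInv p S) (hfam : IsLocalInvFamily p S ζ₀ inv)
    (hH3 : H62.H3Statement p S) (hREC : H62.RECStatement p S inv)
    (hLOC : ∀ q : ↥S, LocOrbitStatement p (q.1 : ℕ) S)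
    (hINV : InvHlcStatement p S)
    (L : IntermediateField ℚ Qb) (hL : H70.IsLevelField p S L)
    (pp : H66.QZ →+ H66.QZ) (lam : H88.FinPlace ↥L → H70.HP S L 2 →+ H66.QZ)
    (hI : (H70.finalInv S L hL.1 pp lam).Good p) :
    H70.FieldFormBridge hpS (H43.rPackage S (H62.rpairing p S inv)) L
      (H70.finalInv S L hL.1 pp lam).toArith := by
  have : NumberField ↥L := H70.numberField_of_unr hL.1
  refine fieldFormBridge_of hp2 hpS ζ₀ hζ₀ inv hfam hH3 hREC hLOC hINV L hL
    (H70.finalInv S L hL.1 pp lam).toArith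
    (Equiv.subtypeEquivRight fun v => H88.mem_sPlaces_iff) ?_
  intro v K a ha
  have h1 := H70.FinInvP.inv_φ (H70.finalInv S L hL.1 pp lam) hI K (v : H88.FinPlace ↥L) a
  refine h1.trans ?_
  show pp ((H88.layerOf ↥L ↥K.K).linv (v : H88.FinPlace ↥L) a) = _
  refine hI.pp_id _ ⟨1, ?_⟩
  rw [pow_one]
  exact (map_nsmul ((H88.layerOf ↥L ↥K.K).linv (v : H88.FinPlace ↥L)) p a).symm.trans
    ((congrArg ((H88.layerOf ↥L ↥K.K).linv (v : H88.FinPlace ↥L)) ha).trans (map_zero _))

/-- **`H70.LevelLeaves`** over a level field `L`, for the concrete arithmetic data: from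
`(finalInv …).Good p` (leaf (A)), the bridge (C) and the bound (D). -/
theorem levelLeaves_of_finalInv (hp2 : p ≠ 2) (hpS : pPrime p ∈ S)
    (ζ₀ : Qb) (hζ₀ : IsPrimitiveRoot ζ₀ p)
    (inv : H62.LocalInv p S) (hfam : IsLocalInvFamily p S ζ₀ inv)
    (hH3 : H62.H3Statement p S) (hREC : H62.RECStatement p S inv)
    (hLOC : ∀ q : ↥S, LocOrbitStatement p (q.1 : ℕ) S)
    (hINV : InvHlcStatement p S)
    (c : IntermediateField ℚ Qb → ℕ)
    (L : IntermediateField ℚ Qb) (hL : H70.IsLevelField p S L)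
    (hA : ∃ (pp : H66.QZ →+ H66.QZ) (lam : H88.FinPlace ↥L → H70.HP S L 2 →+ H66.QZ),
      (H70.finalInv S L hL.1 pp lam).Good p)
    (hD : H70.H1BoundStatement p S L (c L)) :
    H70.LevelLeaves (T := H66.QZ) hpS (H43.rPackage S (H62.rpairing p S inv)) c L := by
  obtain ⟨pp, lam, hI⟩ := hA
  exact ⟨(H70.finalInv S L hL.1 pp lam).toArith, H70.FinInvP.good_toArith _ hI,
    fieldFormBridge_finalInv hp2 hpS ζ₀ hζ₀ inv hfam hH3 hREC hLOC hINV L hL pp lam hI, hD⟩

end Fermat.Agent.S55.H54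

end
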