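/-
Program C (S55), package C9b, leaf (C) `H70.FieldFormBridge` (helper54): CLOSED.

The two leaf Props of `BridgeSpec.lean` are theorems (`locOrbitStatement` from helper66's
`H66.loc_orbit_holds`, `invHlcStatement` = helper43's `H43.invHlc_holds`), hence
`fieldFormBridge_holds` / `levelLeaves_holds` for helper70's concrete arithmetic data
`(H70.finalInv S L hL.1 pp lam).toArith`, with no leaf hypothesis of (C) left.
-/
import Fermat.Agent.S55.H54.BridgeFinal
import Fermat.Agent.S55.H66.LocFinal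
import Fermat.Agent.S55.H43.InvHlcP

set_option autoImplicit false

open CategoryTheory groupCohomology ExtCitation

noncomputable section

namespace Fermat.Agent.S55.H54

open Fermat.Agent.S55 Fermat.Agent.S55.H49 Fermat.Agent.S55.H26 Fermat.Agent.S55.H66

local notation "Qb" => AlgebraicClosure ℚ

attribute [local instance] H88.factOfPrimes

/-- **(LOC), single-orbit module form**: helper66's `H66.loc_orbit_holds`. -/
theorem locOrbitStatement (p : ℕ) [Fact p.Prime] (q : ℕ) [Fact q.Prime]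
    (S : Finset Nat.Primes) : LocOrbitStatement p q S := by
  intro L _ K _ _ ζ hζ hζL inv₀ hinv₀ z c hc g₀ m hm1 hm0
  have h := loc_orbit_holds p q S L K ζ hζ hζL inv₀ hinv₀ z c hc m g₀ hm0
  rw [h, hm1, ← Units.val_mul, mul_inv_cancel, Units.val_one, ZMod.val_one, one_smul]

/-- **(C-inv)**: helper43's `H43.invHlc_holds`. -/
theorem invHlcStatement (p : ℕ) [Fact p.Prime] (S : Finset Nat.Primes) : InvHlcStatement p S :=
  H43.invHlc_holds p S

variable {p : ℕ} [Fact p.Prime] {S : Finset Nat.Primes}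

/-- **Leaf (C) `H70.FieldFormBridge`** for `A = (H70.finalInv S L hL.1 pp lam).toArith`. -/
theorem fieldFormBridge_holds (hp2 : p ≠ 2) (hpS : pPrime p ∈ S)
    (ζ₀ : Qb) (hζ₀ : IsPrimitiveRoot ζ₀ p)
    (inv : H62.LocalInv p S) (hfam : IsLocalInvFamily p S ζ₀ inv)
    (hH3 : H62.H3Statement p S) (hREC : H62.RECStatement p S inv)
    (L : IntermediateField ℚ Qb) (hL : H70.IsLevelField p S L)
    (pp : H66.QZ →+ H66.QZ) (lam : H88.FinPlace ↥L → H70.HP S L 2 →+ H66.QZ)
    (hI : (H70.finalInv S L hL.1 pp lam).Good p) :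
    H70.FieldFormBridge hpS (H43.rPackage S (H62.rpairing p S inv)) L
      (H70.finalInv S L hL.1 pp lam).toArith :=
  fieldFormBridge_finalInv hp2 hpS ζ₀ hζ₀ inv hfam hH3 hREC
    (fun q => locOrbitStatement p (q.1 : ℕ) S) (invHlcStatement p S) L hL pp lam hI

/-- **`H70.LevelLeaves`** over a level field `L`: from leaf (A) in the form
`(finalInv …).Good p` and the bound (D). -/
theorem levelLeaves_holds (hp2 : p ≠ 2) (hpS : pPrime p ∈ S)
    (ζ₀ : Qb) (hζ₀ : IsPrimitiveRoot ζ₀ p)
    (inv : H62.LocalInv p S) (hfam : IsLocalInvFamily p S ζ₀ inv)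
    (hH3 : H62.H3Statement p S) (hREC : H62.RECStatement p S inv)
    (c : IntermediateField ℚ Qb → ℕ)
    (L : IntermediateField ℚ Qb) (hL : H70.IsLevelField p S L)
    (hA : ∃ (pp : H66.QZ →+ H66.QZ) (lam : H88.FinPlace ↥L → H70.HP S L 2 →+ H66.QZ),
      (H70.finalInv S L hL.1 pp lam).Good p)
    (hD : H70.H1BoundStatement p S L (c L)) :
    H70.LevelLeaves (T := H66.QZ) hpS (H43.rPackage S (H62.rpairing p S inv)) c L :=
  levelLeaves_of_finalInv hp2 hpS ζ₀ hζ₀ inv hfam hH3 hREC
    (fun q => locOrbitStatement p (q.1 : ℕ) S) (invHlcStatement p S) c L hL hA hD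

end Fermat.Agent.S55.H54

end
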