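/-
Program C (S55), package C9b (helper54): leaf (A) with an EXPLICIT witness, and the resulting
input (5) of the top.

`H70.FinInvPStatement` hides its witness; the bridge (C) needs the concrete
`H70.finalInv S F hF pp lam`.  Here:

* `finalInv_good_of_leaves'` : the witness-explicit form of helper70's
  `H70.finInvPStatement_of_leaves'` (same proof): `∃ lam, (finalInv S F hF pp lam).Good p`;
* `finalInv_good_of_three` : the same from the three open inputs of `H70.arithStatement_of_three`
  (`H29.CycloRecStatement p`, `H70.H3QSStatement p S`, `H70.LamStatement p S (H63.pPart p)`);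
* `bridge_family_of_good`, `bridge_family_of_three` : the hypothesis `hbr` of
  `H87.s55_of_open_leaves_family` — for every family `inv` of local invariants attached to `ζ₀`
  and every level field `L`, a `GSArith` with `Good` and `H70.FieldFormBridge`.
-/
import Fermat.Agent.S55.H54.BridgeClosed
import Fermat.Agent.S55.H70.GSC8
import Fermat.Agent.S55.H12.CDArith
import Fermat.Agent.S55.H62.RH3Bridge

set_option autoImplicit false

open CategoryTheory groupCohomology ExtCitation

noncomputable section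

namespace Fermat.Agent.S55.H54

open Fermat.Agent.S55 Fermat.Agent.S55.H23

local notation "Qb" => AlgebraicClosure ℚ

attribute [local instance] H88.factOfPrimes

variable {p : ℕ} [Fact p.Prime] {S : Finset Nat.Primes}

/-- The witness-explicit form of `H70.finInvPStatement_of_leaves'`: the concrete finite-level
data `H70.finalInv S F hF pp lam` are `Good`. -/
theorem finalInv_good_of_leaves' (hp2 : p ≠ 2)
    (hdiv : ∀ a : H66.QZ, H70.IsPPrimary p a → ∃ a' : H66.QZ, H70.IsPPrimary p a' ∧ p • a' = a)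
    (pp : H66.QZ →+ H66.QZ) (hpp1 : ∀ t, H70.IsPPrimary p t → pp t = t)
    (hpp2 : ∀ (t : H66.QZ) (m : ℕ), ¬ p ∣ m → m • t = 0 → pp t = 0)
    (hInfl : H29.InflCompatStatement)
    (hHasse : H29.HassePStatement H29.NFLayer p)
    (hRec : H29.RecStatement H29.NFLayer p)
    (hEx : H29.CyclicExStatement p)
    (hCyc : H70.CycTowerStatement p S)
    (hH3 : H70.H3QSStatement p S)
    (hSne : S.Nonempty)
    (hLam : H70.LamStatement p S pp)
    (F : IntermediateField ℚ Qb) (hF : F.IsUnramifiedOutside S)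
    (hμ : ∀ ζ : Qb, ζ ^ p = 1 → ζ ∈ F) :
    ∃ lam : H88.FinPlace ↥F → H70.HP S F 2 →+ H66.QZ, (H70.finalInv S F hF pp lam).Good p := by
  obtain ⟨lam, hPa, hPb, hPbfin, hlam⟩ := hLam F hF hμ
  haveI := H70.numberField_of_unr hF
  have hpr : p.Prime := Fact.out
  refine ⟨lam, ?_⟩
  refine
    { hdiv := hdiv
      VSne := H70.sPlaces_nonempty hSne F
      pp_id := hpp1
      pp_kill := hpp2
      compat := fun L L' h v a => H70.compat_layer hInfl hF L L' h v a
      hasse := fun L a ha h => hHasse _ (H70.nfLayer_layer hF L) a ha h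
      recip := ?_
      exist := ?_
      h3 := fun L a ha => hH3 F hF hμ L a ha
      hPa := hPa
      hPb := fun c hc h => hPb c hc fun v hv => h v (fun hv' => hv (H88.mem_sPlaces_iff.1 hv'))
      hPbfin := hPbfin
      hlam := fun v hv L a => hlam v (fun hv' => hv (H88.mem_sPlaces_iff.2 hv')) L a }
  · -- reciprocity
    intro L a ha W hW
    have h1 : ∑ᶠ v, (H88.layerOf ↥F ↥L.K).linv v a = 0 := hRec _ (H70.nfLayer_layer hF L) a ha
    rw [← h1]
    refine (finsum_eq_sum_of_support_subset _ ?_).symm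
    intro v hv
    by_contra hvW
    exact hv (hW v hvW)
  · -- existence
    intro t W ht hW hsum
    classical
    choose kk hkk using ht
    obtain ⟨L, hcyc, hn, hdeg⟩ := hCyc F hF hμ W (W.sup kk)
    haveI := H70.numberField_layer L
    haveI := hcyc
    have hζ : ∃ ζ : ↥F, IsPrimitiveRoot ζ p := by
      haveI : NeZero (p : Qb) := ⟨by exact_mod_cast hpr.ne_zero⟩
      haveI : NeZero p := ⟨hpr.ne_zero⟩
      obtain ⟨ζ, hζ⟩ := HasEnoughRootsOfUnity.exists_primitiveRoot Qb p
      refine ⟨⟨ζ, hμ ζ hζ.pow_eq_one⟩, ?_⟩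
      exact IsPrimitiveRoot.of_map_of_injective (f := algebraMap ↥F Qb)
        (hf := (algebraMap ↥F Qb).injective) hζ
    have hex := hEx hpr hp2 ↥F ↥L.K hζ hn
    have hfin : (Function.support t).Finite :=
      W.finite_toSet.subset fun v hv => by
        by_contra hvW
        exact hv (hW v hvW)
    have hd : ∀ v, H29.locDegAt ↥F ↥L.K v • t v = 0 := by
      intro v
      by_cases hv : v ∈ W
      · obtain ⟨m, hm⟩ := hdeg v hv
        obtain ⟨j, hj⟩ : p ^ kk v ∣ p ^ W.sup kk := pow_dvd_pow p (Finset.le_sup hv)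
        have e : H29.locDegAt ↥F ↥L.K v = (j * m) * p ^ kk v := by rw [hm, hj]; ring
        rw [e, mul_smul, hkk v, smul_zero]
      · rw [hW v hv, smul_zero]
    have hs : ∑ᶠ v, t v = 0 := by
      rw [finsum_eq_sum_of_support_subset t (s := W) (fun v hv => by
        by_contra hvW
        exact hv (hW v hvW))]
      exact hsum
    obtain ⟨α, hα⟩ := hex t hfin hd hs
    refine ⟨L, α, ?_, hα⟩
    obtain ⟨n, hn⟩ := hn
    refine ⟨n, ?_⟩
    have hc := H80.card_smul_eq_zero (Rep.ofAlgebraAutOnUnits ↥F ↥L.K) 2 (Or.inr rfl) α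
    rw [IsGalois.card_aut_eq_finrank, hn] at hc
    exact hc

/-- Leaf (A) with the explicit witness, from C8's exports (B1)–(B4) and (L2-P + HLAM). -/
theorem finalInv_good_of_c8 (hp2 : p ≠ 2) (hpS : pPrime p ∈ S)
    (hHasse : H29.HassePStatement H29.NFLayer p)
    (hRec : H29.RecStatement H29.NFLayer p)
    (hEx : H29.CyclicExStatement p)
    (hH3 : H70.H3QSStatement p S)
    (hLam : H70.LamStatement p S (H63.pPart p))
    (F : IntermediateField ℚ Qb) (hF : F.IsUnramifiedOutside S)
    (hμ : ∀ ζ : Qb, ζ ^ p = 1 → ζ ∈ F) :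
    ∃ lam : H88.FinPlace ↥F → H70.HP S F 2 →+ H66.QZ,
      (H70.finalInv S F hF (H63.pPart p) lam).Good p := by
  obtain ⟨hdiv, -⟩ := H70.pPartStatement p
  refine finalInv_good_of_leaves' hp2 hdiv (H63.pPart p) ?_ ?_ H70.inflCompatStatement hHasse
    hRec hEx (H70.cycTowerStatement hp2 hpS) hH3 ⟨_, hpS⟩ hLam F hF hμ
  · exact fun _ ht => H63.pPartOf_of_isPPrimary Fact.out H63.qz_torsion ht
  · exact fun _ _ hm ht => H63.pPartOf_eq_zero Fact.out H63.qz_torsion hm ht

/-- Leaf (A) with the explicit witness, from the three open inputs of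
`H70.arithStatement_of_three`. -/
theorem finalInv_good_of_three (hp2 : p ≠ 2) (hpS : pPrime p ∈ S)
    (hCR : H29.CycloRecStatement p) (hH3 : H70.H3QSStatement p S)
    (hLam : H70.LamStatement p S (H63.pPart p))
    (F : IntermediateField ℚ Qb) (hF : F.IsUnramifiedOutside S)
    (hμ : ∀ ζ : Qb, ζ ^ p = 1 → ζ ∈ F) :
    ∃ lam : H88.FinPlace ↥F → H70.HP S F 2 →+ H66.QZ,
      (H70.finalInv S F hF (H63.pPart p) lam).Good p :=
  finalInv_good_of_c8 hp2 hpS (H52.hassePStatement Fact.out hp2)
    (H70.recStatement_of_cycloRec hp2 hCR) (H70.cyclicExStatement_of_cycloRec hp2 hCR) hH3 hLam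
    F hF hμ

/-- **Input (5) of the top** (`hbr` of `H87.s55_of_open_leaves_family`), from leaf (A) with an
explicit witness: for every family of local invariants attached to `ζ₀` with (RECQ) and every
level field `L`, a `GSArith` with `Good` and the bridge (C). -/
theorem bridge_family_of_good (hp2 : p ≠ 2) (hpS : pPrime p ∈ S)
    (ζ₀ : Qb) (hζ₀ : IsPrimitiveRoot ζ₀ p)
    (hGood : ∀ (F : IntermediateField ℚ Qb) (hF : F.IsUnramifiedOutside S),
      (∀ ζ : Qb, ζ ^ p = 1 → ζ ∈ F) →
      ∃ (pp : H66.QZ →+ H66.QZ) (lam : H88.FinPlace ↥F → H70.HP S F 2 →+ H66.QZ),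
        (H70.finalInv S F hF pp lam).Good p)
    (inv : H62.LocalInv p S) (hfam : H26.IsLocalInvFamily p S ζ₀ inv)
    (hREC : H62.RECStatement p S inv)
    (L : IntermediateField ℚ Qb) (hL : H70.IsLevelField p S L) :
    ∃ A : H70.GSArith S L H66.QZ, A.Good p ∧
      H70.FieldFormBridge hpS (H43.rPackage S (H62.rpairing p S inv)) L A := by
  have hA : H70.ArithStatement p S H66.QZ := fun E hE hμ => by
    obtain ⟨pp, lam, hI⟩ := hGood E hE hμ
    exact ⟨(H70.finalInv S E hE pp lam).toArith, H70.FinInvP.good_toArith _ hI⟩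
  have hH3 : H62.H3Statement p S :=
    H62.h3Statement_of_HS_of_mem hpS (H12.hs3_chi_eq_zero_of_arith hpS hA)
  obtain ⟨pp, lam, hI⟩ := hGood L hL.1 hL.2.2
  exact ⟨(H70.finalInv S L hL.1 pp lam).toArith, H70.FinInvP.good_toArith _ hI,
    fieldFormBridge_holds hp2 hpS ζ₀ hζ₀ inv hfam hH3 hREC L hL pp lam hI⟩

/-- **Input (5) of the top from the three open inputs of (A)** and (RECQ). -/
theorem bridge_family_of_three (hp2 : p ≠ 2) (hpS : pPrime p ∈ S)
    (ζ₀ : Qb) (hζ₀ : IsPrimitiveRoot ζ₀ p)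
    (hCR : H29.CycloRecStatement p) (hH3 : H70.H3QSStatement p S)
    (hLam : H70.LamStatement p S (H63.pPart p))
    (inv : H62.LocalInv p S) (hfam : H26.IsLocalInvFamily p S ζ₀ inv)
    (hREC : H62.RECStatement p S inv)
    (L : IntermediateField ℚ Qb) (hL : H70.IsLevelField p S L) :
    ∃ A : H70.GSArith S L H66.QZ, A.Good p ∧
      H70.FieldFormBridge hpS (H43.rPackage S (H62.rpairing p S inv)) L A :=
  bridge_family_of_good hp2 hpS ζ₀ hζ₀
    (fun F hF hμ => ⟨H63.pPart p, finalInv_good_of_three hp2 hpS hCR hH3 hLam F hF hμ⟩)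
    inv hfam hREC L hL

end Fermat.Agent.S55.H54

end
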